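/-
Row 37 (S43), block GLUE (helper144).  STUB of `Glue/FreeZ.lean` (owner helper143): statements only.
The final file `Fermat/Agent/S43/Glue/FreeZ.lean` must declare EXACTLY these names with these statements, sorry-free.
PAPER PROOFS.
(U)  `γ ^ h = 1`, `p ∤ h`, `ν = γ - 1` nilpotent on `x`, `p ^ k x = 0`: `(1 + ν) ^ h = 1 + h ν + ν² c`, so `h ν + ν² c = 0`;
     if `j ≥ 2` is minimal with `ν ^ j x = 0`, apply `ν ^ (j - 2)`: `h ν ^ (j - 1) x = 0`, so `ν ^ (j - 1) x = 0`.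
(hδ) (U) for `γ = g ^ (p ^ e)` on `loc t` (`g - 1 = t ig` is nilpotent on every element, `γ - 1 = (g - 1) (...)`).
(inc_pr) `up dn x = ∑_{j < p^e h} g^j x = h ∑_{j < p^e} δ^j x` on `loc t`; `hinv * h ≡ 1 mod p ^ (e + 1)`.
(pr_surj) `y ∈ loc t₀`: `y = (t₀ i₀ + c) y'`, `y' ∈ loc t₀` (`LocZ.exists_add_zsmul_eq`) `= dn x` (coker), `x ∈ loc t` by exactness
     (`LocZ.exists_mem_loc_map_eq`); `y = pr (h x)`.
(inc_inj) kerup + `LocZ.eq_zero_of_add_zsmul`.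
(fixed) `x ∈ loc t`, `g x = x`: `x = (t i₀ + c) x'`, `x' ∈ loc t`; `(t i₀ + c)(g x' - x') = 0` so `g x' = x'`; inv: `x = up y`;
     exactness for `up`: `y` may be taken in `loc t₀`.
(ker_pr) counting: `Nm W = inc pr W = inc W₀ = ker T`, so `|ker Nm| = |W| / |ker T| = |T W|`, `T W ⊆ ker Nm`; `pr x = 0 → Nm x = 0`.
-/
import Fermat.Agent.S43.Glue.Raw

set_option autoImplicit false

namespace Fermat.Agent.S43.Glue

open Fermat.Agent.S43.LocZ

/-- (U) a unipotent operator of order prime to `p` on a `p`-group is trivial. -/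
theorem eq_of_unipotent {p k h : ℕ} [Fact p.Prime] {W : Type*} [AddCommGroup W]
    (hW : ∀ x : W, p ^ k • x = 0) (γ : W →+ W) (hh : ¬ p ∣ h) (hγ : ∀ x, (γ^[h]) x = x) (x : W)
    (hx : ∃ N : ℕ, ((γ - AddMonoidHom.id W)^[N]) x = 0) : γ x = x := sorry

namespace FreeRaw

variable {p e : ℕ} [Fact p.Prime] {ι V V₀ : Type} [AddCommGroup V] [AddCommGroup V₀]
  [Finite V] [Finite V₀] {t : ι → V →+ V} {t₀ : ι → V₀ →+ V₀} (R : FreeRaw p e t t₀)

theorem hδ : R.δ ^ (p ^ e) = 1 := sorry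

theorem pr_surj : Function.Surjective R.pr := sorry

theorem pr_δ (x : loc t) : R.pr (R.δ x) = R.pr x := sorry

theorem inc_inj : Function.Injective R.inc := sorry

theorem δ_inc (y : loc t₀) : R.δ (R.inc y) = R.inc y := sorry

theorem inc_pr (x : loc t) : R.inc (R.pr x) = ∑ j ∈ Finset.range (p ^ e), (R.δ ^ j) x := sorry

theorem fixed (x : loc t) (hx : R.δ x = x) : ∃ y, x = R.inc y := sorry

theorem ker_pr (x : loc t) (hx : R.pr x = 0) : ∃ y, x = R.δ y - y := sorry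

/-- **Tameness on `loc t`**: an operator `τ` commuting with `g`, compatible with `dn`, with `(τ₀ - 1)² = 0` on `loc t₀`, has
order prime to `q` on `loc t` (`(τ - 1)² W ⊆ ker pr = T W`, so `τ` is unipotent; then (U) for `τ ^ (m / q)`, `m` the order). -/
theorem exists_iterate_eq (τ : V →+ V) (τ₀ : V₀ →+ V₀) (τ_t : ∀ i x, τ (t i x) = t i (τ x))
    (τ_g : ∀ x, τ (R.g x) = R.g (τ x)) (dn_τ : ∀ x, R.dn (τ x) = τ₀ (R.dn x))
    (hτ₀ : ∀ y ∈ loc t₀, τ₀ (τ₀ y - y) = τ₀ y - y) (hfin : ∃ m : ℕ, 0 < m ∧ ∀ x, (τ^[m]) x = x)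
    {q : ℕ} (hq : q.Prime) (hqp : q ≠ p) :
    ∃ m : ℕ, ¬ q ∣ m ∧ ∀ x ∈ loc t, (τ^[m]) x = x := sorry

end FreeRaw

end Fermat.Agent.S43.Glue
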