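/-
Row 37 (S43), block GLUE (helper144).  SKELETON of `Glue/RawPkg.lean` (owner helper51): `Raw ⟹ Glue.Pkg` on the `m`-parts.
All DATA fields are fixed here (do not change them: `Glue/RawRed.lean` unfolds them); fill the `sorry`s.
-/
import Fermat.Agent.S43.Glue.WIP.FreeZ

set_option autoImplicit false

namespace Fermat.Agent.S43.Glue

open Fermat.Agent.S43.LocZ

namespace Raw

variable {p e : ℕ} [Fact p.Prime] {ι V V₀ : Type} [AddCommGroup V] [AddCommGroup V₀]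
  [Finite V] [Finite V₀] {t : ι → V →+ V} {t₀ : ι → V₀ →+ V₀} (R : Raw p e t t₀)

/-- the restricted operators -/
def SW : loc t →+ loc t := mapLoc R.S R.S_t
def FW : loc t →+ loc t := mapLoc R.F R.F_t
def UW : loc t →+ loc t := mapLoc R.U R.U_t
def UtW : loc t →+ loc t := mapLoc R.Ut R.Ut_t
def SW₀ : loc t₀ →+ loc t₀ := mapLoc R.S₀ R.S₀_t
def FW₀ : loc t₀ →+ loc t₀ := mapLoc R.F₀ R.F₀_t
def UW₀ : loc t₀ →+ loc t₀ := mapLoc R.U₀ R.U₀_t

/-- **`Raw ⟹ T2.Data`.** -/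
noncomputable def t2 : T2.Data p (e + 1) e (loc t) (loc t₀) where
  hk := Nat.succ_pos e
  hW := sorry
  δ := R.toFreeRaw.δ
  a := R.SW - AddMonoidHom.id _
  N₀ := R.SW₀ - AddMonoidHom.id _
  pr := R.toFreeRaw.pr
  inc := R.toFreeRaw.inc
  hδ := R.toFreeRaw.hδ
  pr_surj := R.toFreeRaw.pr_surj
  pr_δ := R.toFreeRaw.pr_δ
  ker_pr := R.toFreeRaw.ker_pr
  inc_inj := R.toFreeRaw.inc_inj
  δ_inc := R.toFreeRaw.δ_inc
  inc_pr := R.toFreeRaw.inc_pr
  pr_a := sorry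
  a_inc := sorry
  hE := sorry
  hpure := sorry
  K := R.K.comap (loc t).subtype
  K' := R.K'.comap (loc t).subtype
  K_δ := sorry
  K'_δ := sorry
  aK := sorry
  bK' := sorry
  prK := sorry
  prK' := sorry
  γ := sorry
  γ' := sorry

/-- **`Raw ⟹ Glue.Pkg`.** -/
noncomputable def pkg : Pkg p e (loc t) (loc t₀) where
  toData := R.t2
  κ := R.κ
  q := R.q
  hq := R.hq
  hκ := R.hκ
  S := R.SW
  F := R.FW
  U := R.UW
  Ut := R.UtW
  F₀ := R.FW₀
  U₀ := R.UW₀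
  a_eq := sorry
  δ_U := sorry
  δ_S := sorry
  U_S := sorry
  Ut_S := sorry
  tame := sorry
  pr_F := sorry
  pr_U := sorry
  pr_Ut := sorry
  U₀_surj := sorry
  FK := sorry
  FK' := sorry
  L0 := sorry
  Z1 := sorry
  Z2 := sorry

include R in
theorem nontrivial_W₀ : Nontrivial (loc t₀) := sorry

end Raw

end Fermat.Agent.S43.Glue
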