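/-
Row 37 (S43), block GLUE (helper144).  SKELETON of `Glue/RawRed.lean` (owner helper45): `RawRed + H5Add ⟹ Glue.Red`, and the
LAYER 2 THEOREM `Raw.nonempty_data`.   Fill the `sorry`s; final file `Fermat/Agent/S43/Glue/RawRed.lean` importing
`Glue/RawPkg.lean`.
-/
import Fermat.Agent.S43.Glue.WIP.RawPkg

set_option autoImplicit false

namespace Fermat.Agent.S43.Glue

open Fermat.Agent.S43.LocZ

namespace RawRed

variable {p e : ℕ} [Fact p.Prime] {ι V V₀ : Type} [AddCommGroup V] [AddCommGroup V₀]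
  [Finite V] [Finite V₀] {t : ι → V →+ V} {t₀ : ι → V₀ →+ V₀} {R : Raw p e t t₀}
  {Vb : Type} [AddCommGroup Vb] {tb : ι → Vb →+ Vb} (B : RawRed R tb)

/-- the `𝔽_p`-structure of `Wb = loc tb` -/
@[reducible] def modb : Module (ZMod p) (loc tb) :=
  AddCommGroup.zmodModule fun x => Subtype.ext (by
    rw [AddSubgroup.coe_nsmul, B.hVb]; rfl)

/-- an additive endomorphism of `Wb` as a linear map -/
def lin (f : loc tb →+ loc tb) : @Module.End (ZMod p) (loc tb) _ _ B.modb :=
  letI := B.modb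
  f.toZModLinearMap p

/-- **`RawRed + H5Add ⟹ Glue.Red`.** -/
noncomputable def red (H : B.H5) : @Red p e (loc t) (loc t₀) _ _ R.pkg (loc tb) _ B.modb :=
  letI := B.modb
  { π := mapLoc B.π B.π_t
    π_surj := sorry
    ker_π := sorry
    δb := B.lin (mapLoc B.gb B.gb_t)
    Sb := B.lin (mapLoc B.Sb B.Sb_t)
    Fb := B.lin (mapLoc B.Fb B.Fb_t)
    Ub := B.lin (mapLoc B.Ub B.Ub_t)
    Utb := B.lin (mapLoc B.Utb B.Utb_t)
    π_δ := sorry
    π_S := sorry
    π_F := sorry
    π_U := sorry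
    π_Ut := sorry
    ι := H.ι
    s := H.s
    t := fun i => B.lin (H.t i)
    c := fun i => B.lin (H.c i)
    t_δ := sorry
    t_S := sorry
    t_F := sorry
    t_U := sorry
    t_t := sorry
    t_nilp := sorry
    c_δ := sorry
    c_U := sorry
    c_Ut := sorry
    H5 := sorry }

include B in
/-- **GLUE, layer 2.** -/
theorem nonempty_data (H : B.H5) : Nonempty (CoreP.Data p) := by
  letI := B.modb
  haveI := R.nontrivial_W₀
  exact (B.red H).nonempty_data

end RawRed

end Fermat.Agent.S43.Glue
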